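import Fermat.Agent.S33.Line.Basic
import Fermat.Agent.MAZ.Abs.Line
import Fermat.Prelude.Def_GaloisRep_LocalConditions

/-!
# S33 / Delta : the element `δ` of the inertia group  (WP **DELTA**)

PAPER PROOF.  `k = ResidueField T` is a finite field.  `ψ : I → kˣ`, `τ ↦ residue (det (ρ τ))` is a
homomorphism (`det (ρ τ)` is a unit: `ρ.det`), its range is a subgroup of the cyclic group `kˣ`, hence
cyclic (`Subgroup.isCyclic`): `ψ δ` a generator; every element of a finite cyclic group is a power with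
exponent in `ℕ` (`IsCyclic.exists_generator`, `mem_powers_iff_mem_zpowers`).
`ψ δ ≠ 1` : otherwise `ψ = 1`.  Let `ζ` be a primitive `p`-th root of unity in `ℚ̄`; `ζ ∉ ℚ` as `p ≥ 3`
so there is `σ : G_ℚ` with `σ ζ ≠ ζ` (e.g. `IsPrimitiveRoot.autToPow` is injective/surjective on the
cyclotomic field, or: complex conjugation/`ζ ↦ ζ⁻¹`: `IsGalois`, or fixed field argument
`S19.exists_rat_of_fixed_artin` + a rational root of unity is `± 1`).
`MAZ.exists_inertia_mul_mem_fixMu hp hP σ` gives `τ ∈ I` with `τ ζ = σ ζ ≠ ζ`.  `τ μ = μ ^ a` on `μ_p`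
with `a : ℕ`, `¬ a ≡ 1 [MOD p]`.  `hdet.2 1 τ a` : `det (ρ τ) - a ∈ (p) ⊆ 𝔪`, so `ψ τ = (a : k) ≠ 1`
because `k` has characteristic `p` (`hdet.1`).
-/

set_option autoImplicit false
open IsLocalRing

namespace Fermat.Agent.S33

local notation "GQ" => (AlgebraicClosure ℚ ≃ₐ[ℚ] AlgebraicClosure ℚ)

variable {T : Type} [CommRing T] [IsLocalRing T]

/-- a primitive `p`-th root of unity (`p` an odd prime) is moved by some element of `G_ℚ`. -/
theorem exists_apply_ne_of_primitiveRoot {p : ℕ} (hp : p.Prime) (hp2 : p ≠ 2)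
    {μ : AlgebraicClosure ℚ} (hμ : IsPrimitiveRoot μ p) : ∃ σ : GQ, σ μ ≠ μ := by
  by_contra hcon
  push Not at hcon
  have h1 : μ ∈ (⊥ : IntermediateField ℚ (AlgebraicClosure ℚ)) :=
    (InfiniteGalois.mem_bot_iff_fixed μ).mpr hcon
  obtain ⟨q, rfl⟩ := IntermediateField.mem_bot.mp h1
  have h2 : q ^ p = 1 := by
    have := hμ.pow_eq_one
    rw [← map_pow] at this
    exact (algebraMap ℚ (AlgebraicClosure ℚ)).injective (this.trans (map_one _).symm)
  have hodd : Odd p := hp.odd_of_ne_two hp2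
  have h3 : q = 1 := hodd.strictMono_pow.injective (by simpa using h2)
  rw [h3, map_one] at hμ
  exact hp.one_lt.ne' (hμ.unique IsPrimitiveRoot.one)

/-- there is `τ` in the inertia group at `p` with `det ρ τ ≢ 1`. -/
theorem exists_inertia_det_ne_one (ρ : GaloisRepAdic T) {p : ℕ} (hp : p.Prime)
    (hp2 : p ≠ 2) (hdet : ρ.DetIsCyclotomic p)
    (P : ValuationSubring (AlgebraicClosure ℚ)) (hP : P.LiesOverPrime p) :
    ∃ τ ∈ P.inertiaSubgroupIn ℚ, residue T (LinearMap.det (ρ.ρ τ)) ≠ 1 := by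
  have : Fact p.Prime := ⟨hp⟩
  obtain ⟨μ, hμ⟩ := MAZ.exists_primitiveRoot_Qb hp.ne_zero
  obtain ⟨σ, hσ⟩ := exists_apply_ne_of_primitiveRoot hp hp2 hμ
  obtain ⟨τ, hτ, hστ⟩ := MAZ.exists_inertia_mul_mem_fixMu hp hP σ
  refine ⟨τ, hτ, fun h1 => ?_⟩
  have hτμ : τ μ = σ μ := by
    have h2 : (τ μ) ^ p = 1 := by rw [← map_pow, hμ.pow_eq_one, map_one]
    have h3 := hστ (τ μ) h2
    rw [AlgEquiv.mul_apply, ← AlgEquiv.mul_apply τ⁻¹, inv_mul_cancel] at h3
    exact h3.symm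
  set a : ℕ := ((hμ.autToPow ℚ τ : (ZMod p)ˣ) : ZMod p).val with ha
  have hspec : μ ^ a = τ μ := hμ.autToPow_spec ℚ τ
  have h4 := hdet.2 1 τ a (by
    intro ν hν
    rw [pow_one] at hν
    obtain ⟨i, -, rfl⟩ := hμ.eq_pow_of_pow_eq_one hν
    rw [map_pow, ← hspec, ← pow_mul, ← pow_mul, mul_comm])
  have h5 : LinearMap.det (ρ.ρ τ) - (a : T) ∈ maximalIdeal T := by
    refine (Ideal.span_le.mpr ?_) h4
    rw [Set.singleton_subset_iff, pow_one]
    exact hdet.1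
  have h6 : residue T (LinearMap.det (ρ.ρ τ)) = (a : ResidueField T) := by
    have := (IsLocalRing.residue_eq_zero_iff _).mpr h5
    rw [map_sub, sub_eq_zero, map_natCast] at this
    exact this
  have hp0 : ((p : ℕ) : ResidueField T) = 0 := by
    have := (IsLocalRing.residue_eq_zero_iff _).mpr hdet.1
    rwa [map_natCast] at this
  have hchar : CharP (ResidueField T) p := ringChar.of_eq (CharP.ringChar_of_prime_eq_zero hp hp0)
  have h7 : ((a : ℕ) : ResidueField T) = ((1 : ℕ) : ResidueField T) := by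
    rw [← h6, h1, Nat.cast_one]
  have h8 : a ≡ 1 [MOD p] := (CharP.natCast_eq_natCast (ResidueField T) p).mp h7
  apply hσ
  rw [← hτμ, ← hspec]
  have h9 : μ ^ a = μ ^ 1 := by
    rw [← pow_mod_orderOf μ a, ← pow_mod_orderOf μ 1, ← hμ.eq_orderOf]
    exact congrArg _ h8
  rw [h9, pow_one]

theorem exists_delta [Finite (ResidueField T)] (ρ : GaloisRepAdic T) {p : ℕ} (hp : p.Prime)
    (hp2 : p ≠ 2) (hdet : ρ.DetIsCyclotomic p)
    (P : ValuationSubring (AlgebraicClosure ℚ)) (hP : P.LiesOverPrime p) :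
    ∃ δ ∈ P.inertiaSubgroupIn ℚ, residue T (LinearMap.det (ρ.ρ δ)) ≠ 1 ∧
      ∀ τ ∈ P.inertiaSubgroupIn ℚ, ∃ i : ℕ,
        residue T (LinearMap.det (ρ.ρ τ)) = residue T (LinearMap.det (ρ.ρ δ)) ^ i := by
  classical
  let ψ : (P.inertiaSubgroupIn ℚ) →* (ResidueField T)ˣ :=
    (Units.map (residue T).toMonoidHom).comp (ρ.det.comp (P.inertiaSubgroupIn ℚ).subtype)
  have hψ : ∀ τ : P.inertiaSubgroupIn ℚ,
      ((ψ τ : (ResidueField T)ˣ) : ResidueField T) = residue T (LinearMap.det (ρ.ρ τ)) :=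
    fun τ => rfl
  obtain ⟨⟨g, hg⟩, hgen⟩ := IsCyclic.exists_generator (α := ψ.range)
  obtain ⟨δ, rfl⟩ := MonoidHom.mem_range.mp hg
  have hpow : ∀ τ : P.inertiaSubgroupIn ℚ, ∃ i : ℕ, ψ τ = ψ δ ^ i := by
    intro τ
    have h1 := hgen ⟨ψ τ, MonoidHom.mem_range.mpr ⟨τ, rfl⟩⟩
    rw [← mem_powers_iff_mem_zpowers] at h1
    obtain ⟨i, hi⟩ := Submonoid.mem_powers_iff _ _ |>.mp h1
    exact ⟨i, by simpa using (congrArg Subtype.val hi).symm⟩
  refine ⟨δ, δ.2, fun h1 => ?_, fun τ hτ => ?_⟩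
  · obtain ⟨τ, hτ, hne⟩ := exists_inertia_det_ne_one ρ hp hp2 hdet P hP
    obtain ⟨i, hi⟩ := hpow ⟨τ, hτ⟩
    apply hne
    have := congrArg (Units.val) hi
    rw [hψ, Units.val_pow_eq_pow_val, hψ, h1, one_pow] at this
    exact this
  · obtain ⟨i, hi⟩ := hpow ⟨τ, hτ⟩
    refine ⟨i, ?_⟩
    have := congrArg (Units.val) hi
    rw [hψ, Units.val_pow_eq_pow_val, hψ] at this
    exact this

end Fermat.Agent.S33
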