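import Fermat.Agent.S33.Line.Basic
import Fermat.Prelude.Def_GaloisRep_LocalConditions

/-!
# S33 / Res : the residual hypothesis  (WP **RES**)

PAPER PROOF.  `hres P hP` gives a line `Lb = k ∙ b 0` in `k ⊗[T] V` (`k = ResidueField T`, `b` a basis
of `(ofResidualGaloisRep ρ.residual).V = k ⊗[T] ρ.V`, definitional) such that
`(ρ τ).baseChange k w - w ∈ Lb` for `τ ∈ I`.  The map `V → k ⊗[T] V`, `v ↦ 1 ⊗ₜ v` is surjective
(`k = T / 𝔪`; every `c ⊗ₜ v = 1 ⊗ₜ (t • v)` with `residue t = c`) with kernel `𝔪 V`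
(`k ⊗[T] V ≃ V / 𝔪 V`: `TensorProduct.quotTensorEquivQuotSMul`, or: `V` is free with basis `c`, then
`1 ⊗ₜ v = ∑ residue (c.repr v i) • (1 ⊗ₜ c i)` and `1 ⊗ₜ c i` is a basis (`Module.Basis.baseChange`), so
`1 ⊗ₜ v = 0` iff all coordinates are in `𝔪` iff `v ∈ 𝔪 V`).  Take `e₀` with `1 ⊗ₜ e₀ = b 0`; `b 0 ≠ 0`
gives `e₀ ∉ 𝔪 V`; `1 ⊗ₜ (ρ τ v - v) = x • b 0 = 1 ⊗ₜ (t • e₀)` gives `ρ τ v - v - t • e₀ ∈ 𝔪 V`.
(`mV ρ 1 = (𝔪 ^ 1) • ⊤`, use `pow_one`.)
-/

set_option autoImplicit false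
open IsLocalRing
open scoped TensorProduct

namespace Fermat.Agent.S33

variable {T : Type} [CommRing T] [IsLocalRing T]

/-- `1 ⊗ₜ v = 0` in `k ⊗[T] V` implies `v ∈ 𝔪 V` (`V` free). -/
theorem mem_mV_of_one_tmul_eq_zero (ρ : GaloisRepAdic T) {v : ρ.V}
    (h : (1 : ResidueField T) ⊗ₜ[T] v = 0) : v ∈ mV ρ 1 := by
  classical
  set c := Module.Free.chooseBasis T ρ.V with hc
  have hcoord : ∀ i, c.repr v i ∈ maximalIdeal T := by
    intro i
    have h1 := Module.Basis.baseChange_repr_tmul (ResidueField T) c (1 : ResidueField T) v i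
    rw [h, map_zero, Finsupp.zero_apply, Algebra.smul_def, mul_one,
      IsLocalRing.ResidueField.algebraMap_eq] at h1
    exact (IsLocalRing.residue_eq_zero_iff _).mp h1.symm
  rw [← c.sum_repr v]
  refine Submodule.sum_mem _ fun i _ => ?_
  refine Submodule.smul_mem_smul ?_ Submodule.mem_top
  rw [pow_one]
  exact hcoord i

/-- `v ↦ 1 ⊗ₜ v` is surjective. -/
theorem exists_one_tmul_eq (ρ : GaloisRepAdic T) (w : ResidueField T ⊗[T] ρ.V) :
    ∃ v : ρ.V, (1 : ResidueField T) ⊗ₜ[T] v = w := by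
  induction w using TensorProduct.induction_on with
  | zero => exact ⟨0, TensorProduct.tmul_zero _ _⟩
  | tmul c v =>
    obtain ⟨t, rfl⟩ := IsLocalRing.residue_surjective c
    refine ⟨t • v, ?_⟩
    rw [TensorProduct.tmul_smul, TensorProduct.smul_tmul', Algebra.smul_def, mul_one,
      IsLocalRing.ResidueField.algebraMap_eq]
  | add x y hx hy =>
    obtain ⟨a, rfl⟩ := hx
    obtain ⟨b, rfl⟩ := hy
    exact ⟨a + b, TensorProduct.tmul_add _ _ _⟩

theorem one_tmul_eq_zero_of_mem_mV (ρ : GaloisRepAdic T) {v : ρ.V} (h : v ∈ mV ρ 1) :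
    (1 : ResidueField T) ⊗ₜ[T] v = 0 := by
  refine Submodule.smul_induction_on
    (p := fun x => (1 : ResidueField T) ⊗ₜ[T] x = (0 : ResidueField T ⊗[T] ρ.V)) h ?_ ?_
  · intro a ha w _
    rw [pow_one] at ha
    rw [TensorProduct.tmul_smul, TensorProduct.smul_tmul', Algebra.smul_def,
      IsLocalRing.ResidueField.algebraMap_eq, (IsLocalRing.residue_eq_zero_iff a).mpr ha,
      zero_mul, TensorProduct.zero_tmul]
  · intro x y hx hy
    rw [TensorProduct.tmul_add, hx, hy, add_zero]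

theorem exists_resLine (ρ : GaloisRepAdic T) {p : ℕ}
    (hres : (GaloisRepAdic.ofResidualGaloisRep ρ.residual).IsOrdinaryAt p)
    (P : ValuationSubring (AlgebraicClosure ℚ)) (hP : P.LiesOverPrime p) :
    ∃ e₀ : ρ.V, ResLine ρ (P.inertiaSubgroupIn ℚ) e₀ := by
  obtain ⟨L, ⟨b, hL⟩, -, hI⟩ := hres P hP
  obtain ⟨e₀, he₀⟩ := exists_one_tmul_eq ρ (b 0)
  refine ⟨e₀, ⟨fun hmem => ?_, fun τ hτ v => ?_⟩⟩
  · exact b.ne_zero 0 (he₀.symm.trans (one_tmul_eq_zero_of_mem_mV ρ hmem))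
  · have h1 := hI τ hτ ((1 : ResidueField T) ⊗ₜ[T] v)
    rw [hL, Submodule.mem_span_singleton] at h1
    obtain ⟨x, hx⟩ := h1
    obtain ⟨t, rfl⟩ := IsLocalRing.residue_surjective x
    have h2 : (1 : ResidueField T) ⊗ₜ[T] (ρ.ρ τ v - v - t • e₀) = 0 := by
      have h3 : (GaloisRepAdic.ofResidualGaloisRep ρ.residual).ρ τ ((1 : ResidueField T) ⊗ₜ[T] v)
          = (1 : ResidueField T) ⊗ₜ[T] (ρ.ρ τ v) :=
        LinearMap.baseChange_tmul _ _ _
      rw [TensorProduct.tmul_sub, TensorProduct.tmul_sub, sub_eq_zero]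
      rw [h3] at hx
      refine Eq.trans (Eq.symm hx) ?_
      rw [← he₀]
      show (residue T t) • ((1 : ResidueField T) ⊗ₜ[T] e₀ : ResidueField T ⊗[T] ρ.V) = _
      rw [TensorProduct.tmul_smul, TensorProduct.smul_tmul', TensorProduct.smul_tmul',
        smul_eq_mul, Algebra.smul_def t, IsLocalRing.ResidueField.algebraMap_eq]
    have h4 := mem_mV_of_one_tmul_eq_zero ρ h2
    have h5 : ρ.ρ τ v - v = t • e₀ + (ρ.ρ τ v - v - t • e₀) := by abel
    rw [h5]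
    exact Submodule.add_mem_sup (Submodule.smul_mem _ _ (Submodule.mem_span_singleton_self _)) h4

end Fermat.Agent.S33
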