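import Fermat.Agent.S33.Line.Main
import Fermat.Agent.S33.Res
import Fermat.Agent.S33.Delta
import Fermat.Agent.Cheb.Cyclo
import Fermat.Agent.FLAT.Desc.Star

/-!
# S33 from `Ord (J₀(N)[p ^ k])` (and the interfaces of project GAL)
-/

set_option autoImplicit false
open Polynomial IsLocalRing

namespace Fermat.Agent.S33

open Fermat.Agent.GAL Fermat.Agent.GAL.PC ModularCurve Fermat.Agent.GAL.EigenChar Fermat.Agent.S32

local notation "Qbar" => AlgebraicClosure ℚ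
local notation "GQ" => (AlgebraicClosure ℚ ≃ₐ[ℚ] AlgebraicClosure ℚ)

/-- inertia is normal in the decomposition group. -/
theorem conj_mem_inertia (P : ValuationSubring Qbar) {σ τ : GQ}
    (hσ : σ ∈ P.decompositionSubgroup ℚ) (hτ : τ ∈ P.inertiaSubgroupIn ℚ) :
    σ * τ * σ⁻¹ ∈ P.inertiaSubgroupIn ℚ := by
  have h := Fermat.Agent.FLAT.conj_mem_inertia hτ ((P.decompositionSubgroup ℚ).inv_mem hσ)
  rwa [inv_inv] at h

attribute [local instance] Fermat.Agent.S32.levelDMA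

/-- `T / 𝔪 ^ n` is finite. -/
theorem finite_quot_pow {T : Type} [CommRing T] [IsLocalRing T] [IsNoetherianRing T]
    [Finite (ResidueField T)] (n : ℕ) : Finite (T ⧸ maximalIdeal T ^ n) := by
  have : Finite (T ⧸ maximalIdeal T) := ‹Finite (ResidueField T)›
  exact Ideal.finite_quotient_pow (IsNoetherian.noetherian _) n

variable {p : ℕ} {N : ℕ} [NeZero N] {S : Finset ℕ}
  {𝒪 : Type} [CommRing 𝒪] [IsDomain 𝒪] [IsDiscreteValuationRing 𝒪]
  [IsAdicComplete (IsLocalRing.maximalIdeal 𝒪) 𝒪]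
  {θ : CuspForm.heckeAlgebra N 2 (↑S : Set ℕ) →+* IsLocalRing.ResidueField 𝒪}
  {T : Type} [CommRing T] [IsLocalRing T] [IsNoetherianRing T]
  [IsAdicComplete (IsLocalRing.maximalIdeal T) T] [Algebra 𝒪 T] [IsLocalHom (algebraMap 𝒪 T)]
  [Module.Finite 𝒪 T] [Module.Free 𝒪 T]

/-- the geometric input of S33. -/
def OrdJ (N p : ℕ) [NeZero N] : Prop :=
  ∀ (k : ℕ) (P : ValuationSubring Qbar), P.LiesOverPrime p →
    letI := torsAction GQ (JZero N) ((p : ℤ) ^ k)
    Ord (P.inertiaSubgroupIn ℚ) (Submodule.torsionBy ℤ (JZero N) ((p : ℤ) ^ k))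

/-- **S33 from `OrdJ`** and the interfaces of project GAL. -/
theorem s33_of_ordJ (hord : OrdJ N p) (hfin : ∀ k : ℕ, Finite (Submodule.torsionBy ℤ (JZero N) ((p : ℤ) ^ k)))
    (hES : ESUnram N p ∧ ESQuad N p) (hS : ∀ k : ℕ, SUP N (p ^ k))
    [Finite (IsLocalRing.ResidueField 𝒪)]
    (hp : p.Prime) (hp2 : p ≠ 2) (hp𝒪 : (p : 𝒪) ∈ IsLocalRing.maximalIdeal 𝒪)
    (hpS : p ∈ S) (hNS : ∀ q : ℕ, q.Prime → q ∣ N → q ∈ S)
    (H : CuspForm.HeckeGaloisRepDatum N (↑S : Set ℕ) 𝒪 θ T)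
    (hres : (GaloisRepAdic.ofResidualGaloisRep H.ρ.residual).IsOrdinaryAt p) :
    H.ρ.IsOrdinaryAt p := by
  have hpT : (p : T) ∈ maximalIdeal T := by
    have h1 : (p : T) = algebraMap 𝒪 T (p : 𝒪) := (map_natCast _ _).symm
    rw [h1, mem_maximalIdeal, mem_nonunits_iff]
    intro hu
    exact (mem_maximalIdeal _).mp hp𝒪 (isUnit_of_map_unit (algebraMap 𝒪 T) _ hu)
  have h2 : IsUnit (2 : T) := by
    by_contra hu
    have h3 : (2 : T) ∈ maximalIdeal T := (mem_maximalIdeal _).2 hu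
    obtain ⟨j, hj⟩ := hp.odd_of_ne_two hp2
    have h4 : (1 : T) = (p : T) - 2 * (j : T) := by
      rw [hj]; push_cast; ring
    have h5 : (1 : T) ∈ maximalIdeal T := by
      rw [h4]
      exact Ideal.sub_mem _ hpT (Ideal.mul_mem_right _ _ h3)
    exact (Ideal.ne_top_iff_one _).1 (Ideal.IsMaximal.ne_top inferInstance) h5
  have hfink : Finite (ResidueField T) := by
    refine Finite.of_surjective (ResidueField.map (algebraMap 𝒪 T)) fun y => ?_
    obtain ⟨x, hx⟩ := H.residue_surjective y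
    exact ⟨residue 𝒪 x, hx⟩
  have hdet : H.ρ.DetIsCyclotomic p := by
    refine Fermat.Agent.Cheb.detIsCyclotomic_of_frobenius H.ρ hp hpT S ?_
    intro ℓ hℓ hℓS A hA τ hτ
    have hℓN : ¬ ℓ ∣ N := fun h => hℓS (hNS ℓ hℓ h)
    have h1 := H.charpoly_frob ℓ hℓ hℓN (by exact_mod_cast hℓS) A hA τ hτ
    have h3 := LinearMap.det_eq_sign_charpoly_coeff (H.ρ.ρ τ)
    rw [H.ρ.finrank_eq, h1] at h3
    rw [h3]
    simp [coeff_X, coeff_C]
  intro P hP
  obtain ⟨e₀, he₀⟩ := exists_resLine H.ρ hres P hP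
  obtain ⟨δ, hδ, hδ1, hgen⟩ := exists_delta H.ρ hp hp2 hdet P hP
  refine exists_line H.ρ (P.inertiaSubgroupIn ℚ) (P.decompositionSubgroup ℚ)
    (fun σ hσ τ hτ => conj_mem_inertia P hσ hτ) (fun n => ?_) he₀ hδ hδ1 hgen
  obtain ⟨k, hk⟩ := key_concrete hp S hpS hNS (galHecke N) (openStab N) hES.1 hES.2 hS H.π hpT h2
    H.ρ H.residual_absIrr
    (fun ℓ hℓ hℓS A hA σ hσ => by
      have hℓN : ¬ ℓ ∣ N := fun h => hℓS (hNS ℓ hℓ h)
      rw [heckeT_eq hℓ hℓN hℓS]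
      exact H.charpoly_frob ℓ hℓ hℓN hℓS A hA σ hσ) n
  letI i1 := torsAction GQ (JZero N) ((p : ℤ) ^ k)
  have := hfin k
  have : Finite (T ⧸ maximalIdeal T ^ n) := finite_quot_pow n
  have := finite_level H.ρ (maximalIdeal T ^ n)
  refine Ord.of_annihilator (hord k P hP) fun x hx z => ?_
  induction z using Submodule.Quotient.induction_on with
  | H v =>
    rw [sum_level_mk, Submodule.Quotient.mk_eq_zero]
    refine hk x (fun y hy => ?_) v
    have hy' : y ∈ Submodule.torsionBy ℤ (JZero N) ((p : ℤ) ^ k) := by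
      rw [Submodule.mem_torsionBy_iff]
      have : ((p : ℤ) ^ k) • y = (p ^ k : ℕ) • y := by
        rw [← Nat.cast_pow, natCast_zsmul]
      rw [this, hy]
    have := congrArg Subtype.val (hx ⟨y, hy'⟩)
    rw [coe_sum_tors] at this
    exact this

end Fermat.Agent.S33
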