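import Mathlib

/-!
# S33 : modules without trivial subquotients

`G` a group, `I ≤ G` a subgroup ("inertia"), `X` an abelian group with an additive action of `G`.

* `aug I Z` : the subgroup generated by the `τ • z - z`, `τ ∈ I`, `z ∈ Z`.
* `Stable I Z` : `Z` is stable under `I`.
* `NT I Y` : every `I`-stable subgroup `Z ≤ Y` is generated by the `τ • z - z`
  (`Y` has no non zero subquotient with trivial action of `I`).
* `Ord I X` : there is an `I`-stable subgroup `M₀` with `NT I M₀` and trivial action on `X / M₀`.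

`NT` passes to subgroups, images, extensions, finite powers; `Ord` passes to equivariant subgroups,
quotients and finite powers.  See board, topic S33, blueprint v1 (#1481).
-/

set_option autoImplicit false

namespace Fermat.Agent.S33

variable {G : Type*} [Group G] (I : Subgroup G)

section Defs

variable {X : Type*} [AddCommGroup X] [DistribMulAction G X]

/-- the subgroup generated by the `τ • z - z`. -/
def aug (Z : AddSubgroup X) : AddSubgroup X :=
  AddSubgroup.closure {w | ∃ τ ∈ I, ∃ z ∈ Z, w = τ • z - z}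

/-- stability under `I`. -/
def Stable (Z : AddSubgroup X) : Prop := ∀ τ ∈ I, ∀ z ∈ Z, τ • z ∈ Z

/-- no trivial subquotient. -/
def NT (Y : AddSubgroup X) : Prop := ∀ Z : AddSubgroup X, Z ≤ Y → Stable I Z → Z ≤ aug I Z

variable (X) in
/-- "ordinary" modules. -/
def Ord : Prop :=
  ∃ M₀ : AddSubgroup X, Stable I M₀ ∧ (∀ τ ∈ I, ∀ x : X, τ • x - x ∈ M₀) ∧ NT I M₀

variable {I}

theorem smul_sub_mem_aug {Z : AddSubgroup X} {τ : G} (hτ : τ ∈ I) {z : X} (hz : z ∈ Z) :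
    τ • z - z ∈ aug I Z :=
  AddSubgroup.subset_closure ⟨τ, hτ, z, hz, rfl⟩

theorem aug_le {Z W : AddSubgroup X} (h : ∀ τ ∈ I, ∀ z ∈ Z, τ • z - z ∈ W) : aug I Z ≤ W := by
  rw [aug, AddSubgroup.closure_le]
  rintro _ ⟨τ, hτ, z, hz, rfl⟩
  exact h τ hτ z hz

theorem aug_mono {Z W : AddSubgroup X} (h : Z ≤ W) : aug I Z ≤ aug I W :=
  aug_le fun _ hτ _ hz => smul_sub_mem_aug hτ (h hz)

theorem Stable.aug_le {Z : AddSubgroup X} (h : Stable I Z) : aug I Z ≤ Z :=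
  S33.aug_le fun τ hτ z hz => Z.sub_mem (h τ hτ z hz) hz

theorem NT.mono {Y Y' : AddSubgroup X} (h : NT I Y) (hle : Y' ≤ Y) : NT I Y' :=
  fun Z hZ hs => h Z (hZ.trans hle) hs

theorem nt_bot : NT I (⊥ : AddSubgroup X) := by
  intro Z hZ _
  rw [le_bot_iff.1 hZ]
  exact bot_le

theorem Stable.inf {Z W : AddSubgroup X} (hZ : Stable I Z) (hW : Stable I W) : Stable I (Z ⊓ W) :=
  fun τ hτ z hz => ⟨hZ τ hτ z hz.1, hW τ hτ z hz.2⟩

/-- if some `δ ∈ I` is such that `δ - 1` is injective on the finite group `Y`, then `NT I Y`. -/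
theorem nt_of_injective {Y : AddSubgroup X} [Finite Y] {δ : G} (hδ : δ ∈ I)
    (h : ∀ y ∈ Y, δ • y = y → y = 0) : NT I Y := by
  intro Z hZ hs z hz
  have : Finite Z := Finite.of_injective (AddSubgroup.inclusion hZ) (AddSubgroup.inclusion_injective hZ)
  let N : Z →+ Z :=
    { toFun := fun w => ⟨δ • w.1 - w.1, Z.sub_mem (hs δ hδ _ w.2) w.2⟩
      map_zero' := Subtype.ext (by simp)
      map_add' := fun a b => Subtype.ext (by
        show δ • (a.1 + b.1) - (a.1 + b.1) = (δ • a.1 - a.1) + (δ • b.1 - b.1)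
        rw [smul_add]; abel) }
  have hinj : Function.Injective N := by
    rw [injective_iff_map_eq_zero]
    intro w hw
    have h1 : δ • w.1 - w.1 = 0 := congrArg Subtype.val hw
    exact Subtype.ext (h w.1 (hZ w.2) (sub_eq_zero.1 h1))
  obtain ⟨w, hw⟩ := (Finite.injective_iff_surjective.1 hinj) ⟨z, hz⟩
  have h1 : δ • w.1 - w.1 = z := congrArg Subtype.val hw
  rw [← h1]
  exact smul_sub_mem_aug hδ w.2

end Defs

section Maps

variable {I}
variable {X X' : Type*} [AddCommGroup X] [DistribMulAction G X] [AddCommGroup X']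
  [DistribMulAction G X']

theorem Stable.map {Z : AddSubgroup X} (h : Stable I Z) (φ : X →+ X')
    (hφ : ∀ τ ∈ I, ∀ x, φ (τ • x) = τ • φ x) : Stable I (Z.map φ) := by
  rintro τ hτ _ ⟨z, hz, rfl⟩
  exact ⟨τ • z, h τ hτ z hz, hφ τ hτ z⟩

theorem Stable.comap {Z : AddSubgroup X'} (h : Stable I Z) (φ : X →+ X')
    (hφ : ∀ τ ∈ I, ∀ x, φ (τ • x) = τ • φ x) : Stable I (Z.comap φ) := by
  intro τ hτ z hz
  rw [AddSubgroup.mem_comap] at hz ⊢
  rw [hφ τ hτ]
  exact h τ hτ _ hz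

theorem map_aug (φ : X →+ X') (hφ : ∀ τ ∈ I, ∀ x, φ (τ • x) = τ • φ x) (Z : AddSubgroup X) :
    (aug I Z).map φ = aug I (Z.map φ) := by
  apply le_antisymm
  · rw [AddSubgroup.map_le_iff_le_comap]
    refine aug_le fun τ hτ z hz => ?_
    rw [AddSubgroup.mem_comap, map_sub, hφ τ hτ]
    exact smul_sub_mem_aug hτ ⟨z, hz, rfl⟩
  · refine aug_le ?_
    rintro τ hτ _ ⟨z, hz, rfl⟩
    exact ⟨τ • z - z, smul_sub_mem_aug hτ hz, by rw [map_sub, hφ τ hτ]⟩

/-- images -/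
theorem NT.map {Y : AddSubgroup X} (h : NT I Y) (hY : Stable I Y) (φ : X →+ X')
    (hφ : ∀ τ ∈ I, ∀ x, φ (τ • x) = τ • φ x) : NT I (Y.map φ) := by
  intro Z' hZ' hs
  have h1 := h (Y ⊓ Z'.comap φ) inf_le_left (hY.inf (hs.comap φ hφ))
  have h2 : (Y ⊓ Z'.comap φ).map φ = Z' := by
    apply le_antisymm
    · rintro _ ⟨z, hz, rfl⟩
      exact hz.2
    · intro z' hz'
      obtain ⟨y, hy, rfl⟩ := hZ' hz'
      exact ⟨y, ⟨hy, hz'⟩, rfl⟩
  have h3 := AddSubgroup.map_mono (f := φ) h1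
  rwa [map_aug φ hφ, h2] at h3

/-- preimages under injective maps -/
theorem NT.comap {Y : AddSubgroup X'} (h : NT I Y) (φ : X →+ X') (hinj : Function.Injective φ)
    (hφ : ∀ τ ∈ I, ∀ x, φ (τ • x) = τ • φ x) : NT I (Y.comap φ) := by
  intro Z hZ hs
  have h1 := h (Z.map φ) (by
    rintro _ ⟨z, hz, rfl⟩
    exact hZ hz) (hs.map φ hφ)
  rw [← map_aug φ hφ] at h1
  intro z hz
  obtain ⟨w, hw, hwz⟩ := h1 ⟨z, hz, rfl⟩
  rwa [← hinj hwz]

/-- extensions -/
theorem NT.of_exact {Y : AddSubgroup X} (φ : X →+ X')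
    (hφ : ∀ τ ∈ I, ∀ x, φ (τ • x) = τ • φ x) (h₁ : NT I (Y ⊓ φ.ker)) (h₂ : NT I (Y.map φ)) :
    NT I Y := by
  intro Z hZ hs z hz
  have h3 := h₂ (Z.map φ) (AddSubgroup.map_mono hZ) (hs.map φ hφ)
  rw [← map_aug φ hφ] at h3
  obtain ⟨w, hw, hwz⟩ := h3 ⟨z, hz, rfl⟩
  have hwZ : w ∈ Z := hs.aug_le hw
  have hker : Stable I (φ.ker) := by
    intro τ hτ x hx
    rw [AddMonoidHom.mem_ker] at hx ⊢
    rw [hφ τ hτ, hx, smul_zero]
  have h4 := h₁ (Z ⊓ φ.ker) (inf_le_inf_right _ hZ) (hs.inf hker)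
  have h5 : z - w ∈ Z ⊓ φ.ker :=
    ⟨Z.sub_mem hz hwZ, (AddMonoidHom.mem_ker (f := φ)).2 (by rw [map_sub, hwz, sub_self])⟩
  have h6 : z - w ∈ aug I Z := aug_mono inf_le_left (h4 h5)
  have := (aug I Z).add_mem h6 hw
  rwa [sub_add_cancel] at this

theorem Ord.of_injective (h : Ord I X') (φ : X →+ X') (hinj : Function.Injective φ)
    (hφ : ∀ τ ∈ I, ∀ x, φ (τ • x) = τ • φ x) : Ord I X := by
  obtain ⟨M₀, hs, ht, hn⟩ := h
  refine ⟨M₀.comap φ, hs.comap φ hφ, fun τ hτ x => ?_, hn.comap φ hinj hφ⟩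
  rw [AddSubgroup.mem_comap, map_sub, hφ τ hτ]
  exact ht τ hτ _

theorem Ord.of_surjective (h : Ord I X) (φ : X →+ X') (hsurj : Function.Surjective φ)
    (hφ : ∀ τ ∈ I, ∀ x, φ (τ • x) = τ • φ x) : Ord I X' := by
  obtain ⟨M₀, hs, ht, hn⟩ := h
  refine ⟨M₀.map φ, hs.map φ hφ, fun τ hτ x' => ?_, hn.map hs φ hφ⟩
  obtain ⟨x, rfl⟩ := hsurj x'
  exact ⟨τ • x - x, ht τ hτ x, by rw [map_sub, hφ τ hτ]⟩

end Maps

section Pi

variable {I}
variable {X : Type*} [AddCommGroup X] [DistribMulAction G X] {ι : Type*}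

/-- functions with values in `M₀`, supported in `s`. -/
def piSupp (M₀ : AddSubgroup X) (s : Set ι) : AddSubgroup (ι → X) where
  carrier := {f | (∀ i, f i ∈ M₀) ∧ ∀ i, i ∉ s → f i = 0}
  zero_mem' := ⟨fun _ => M₀.zero_mem, fun _ _ => rfl⟩
  add_mem' := fun {a b} ha hb => ⟨fun i => M₀.add_mem (ha.1 i) (hb.1 i), fun i hi => by
    rw [Pi.add_apply, ha.2 i hi, hb.2 i hi, add_zero]⟩
  neg_mem' := fun {a} ha => ⟨fun i => M₀.neg_mem (ha.1 i), fun i hi => by
    rw [Pi.neg_apply, ha.2 i hi, neg_zero]⟩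

theorem nt_piSupp {M₀ : AddSubgroup X} (hn : NT I M₀) (s : Finset ι) :
    NT I (piSupp M₀ (↑s : Set ι)) := by
  classical
  induction s using Finset.induction_on with
  | empty =>
    refine nt_bot.mono ?_
    intro f hf
    rw [AddSubgroup.mem_bot]
    funext i
    exact hf.2 i (by simp)
  | insert a s ha ih =>
    refine NT.of_exact (Pi.evalAddMonoidHom (fun _ : ι => X) a) (fun _ _ _ => rfl) (ih.mono ?_)
      (hn.mono ?_)
    · rintro f ⟨hf, hfa⟩
      refine ⟨hf.1, fun i hi => ?_⟩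
      by_cases hia : i = a
      · rw [hia]; exact hfa
      · exact hf.2 i (by
          rw [Finset.coe_insert, Set.mem_insert_iff, not_or]
          exact ⟨hia, hi⟩)
    · rintro _ ⟨f, hf, rfl⟩
      exact hf.1 a

theorem Ord.pi [Finite ι] (h : Ord I X) : Ord I (ι → X) := by
  classical
  have := Fintype.ofFinite ι
  obtain ⟨M₀, hs, ht, hn⟩ := h
  refine ⟨piSupp M₀ (↑(Finset.univ : Finset ι) : Set ι), ?_, ?_, nt_piSupp hn _⟩
  · intro τ hτ f hf
    exact ⟨fun i => hs τ hτ _ (hf.1 i), fun i hi => absurd (by simp) hi⟩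
  · intro τ hτ f
    exact ⟨fun i => ht τ hτ (f i), fun i hi => absurd (by simp) hi⟩

end Pi

end Fermat.Agent.S33
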