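import Fermat.Agent.S33.Geo.Main
import Fermat.Agent.GAL.Final
import Fermat.Agent.RR.Hurwitz

/-!
# S33 from (NEW-p)
-/

set_option autoImplicit false
set_option linter.style.haveILetI false

namespace Fermat.Agent.S33

variable {p : ℕ} {N : ℕ} [NeZero N] {S : Finset ℕ}
  {𝒪 : Type} [CommRing 𝒪] [IsDomain 𝒪] [IsDiscreteValuationRing 𝒪]
  [IsAdicComplete (IsLocalRing.maximalIdeal 𝒪) 𝒪]
  {θ : CuspForm.heckeAlgebra N 2 (↑S : Set ℕ) →+* IsLocalRing.ResidueField 𝒪}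
  {T : Type} [CommRing T] [IsLocalRing T] [IsNoetherianRing T]
  [IsAdicComplete (IsLocalRing.maximalIdeal T) T] [Algebra 𝒪 T] [IsLocalHom (algebraMap 𝒪 T)]
  [Module.Finite 𝒪 T] [Module.Free 𝒪 T]

/-- **S33 from (NEW-p)** at the rigid levels. -/
theorem s33_of_newP
    (hNew : ∀ (M : ℕ) [NeZero M] [Fact p.Prime] (hpM : ¬ p ∣ M), (4 ∣ M ∨ 9 ∣ M) → NewP M p hpM)
    [Finite (IsLocalRing.ResidueField 𝒪)]
    (hp : p.Prime) (hp2 : p ≠ 2) (hp𝒪 : (p : 𝒪) ∈ IsLocalRing.maximalIdeal 𝒪)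
    (hN : p ∣ N ∧ ¬ p ^ 2 ∣ N)
    (hNS : ∀ q : ℕ, q.Prime → q ∣ N → q ∈ S)
    (H : CuspForm.HeckeGaloisRepDatum N (↑S : Set ℕ) 𝒪 θ T)
    (hres : (GaloisRepAdic.ofResidualGaloisRep H.ρ.residual).IsOrdinaryAt p) :
    H.ρ.IsOrdinaryAt p := by
  haveI : NeZero p := ⟨hp.ne_zero⟩
  exact s33_of_ordJ (ordJ_of_newP hp hp2 hN hNew) (fun k => FLAT.finite_tors N p k)
    (Fermat.Agent.GAL.Final.es
      (fun _ _ _ _ _ _ _ _ _ _ _ _ h1 h2 => Fermat.Agent.RR.rhRel h1 h2) N p)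
    (fun k => Fermat.Agent.GAL.Final.sup N (p ^ k) (pow_ne_zero _ hp.ne_zero))
    hp hp2 hp𝒪 (hNS p hp hN.1) hNS H hres

end Fermat.Agent.S33
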