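import Fermat.Agent.S33.NewP
import Fermat.Agent.NP.NL
import Fermat.Agent.SS.Top35.SteinKum
import Fermat.Agent.SS.Top35.NormQ
import Fermat.Agent.SS.Top35.Push

/-!
# S33 : the concrete norm lemma `NLConc`
-/

set_option autoImplicit false
set_option linter.style.haveILetI false
set_option linter.unusedSectionVars false

noncomputable section

open AlgebraicCurve ModularCurve IsLocalRing

namespace Fermat.Agent.S33

open Fermat.Agent.SS
open Fermat.Agent.RED hiding Kb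
open Fermat.Agent.RED.Gauss Fermat.Agent.S24 Fermat.Agent.S28
open Fermat.Agent.RED.Cusp (Fb jb)
open Fermat.Agent.GAL.HeckeInputs

section

variable {M q : ℕ} [NeZero M] [hq : Fact q.Prime] (hqM : ¬ q ∣ M)
variable {A : ValuationSubring Kb} {k : Type*} [Field k]
variable (π : A →+* k) [CharP k q] [IsAlgClosed k] (hπ : Function.Surjective π)

/-- the coefficient Frobenius as a ring hom -/
def frobHom : Fb k M →+* Fb k M :=
  (SemilinearAut.toRingAut (FrobK.frobAut k q M) : Fb k M ≃+* Fb k M).toRingHom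

theorem nl_alpha {f : FN (M * q)} {h₀ : FN M}
    (hf : TorsES.normAlong (heckeAlphaBar Kb M q) f = h₀ ^ q)
    (u : FN (M * q)) (δ e : Kb) (z : (twoRed hqM π hπ).O)
    (hδ : A.valuation δ = 1) (he : A.valuation e < 1)
    (hthr : A.valuation (q : Kb) ^ q < A.valuation e ^ (q - 1))
    (heq : f * u ^ q = algebraMap Kb _ δ + algebraMap Kb _ e * (z : FN (M * q))) :
    ∃ v : Fb k M, ((twoRed hqM π hπ).red z).1 = v ^ q := by
  obtain ⟨u₀, hu₀⟩ := exists_isCoreExt M q hqM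
  set R := gaussRedData π hπ (card_Q_pos M) hu₀ with hR
  letI := algebraAlong (heckeAlphaBar Kb M q)
  haveI := isScalarTower_along (heckeAlphaBar Kb M q)
  haveI : Module.Finite (FN M) (FN (M * q)) := Fermat.Agent.GAL.HeckeEquiv.finite_alpha M q
  have hA : ∀ c : Kb, algebraMap Kb (FN M) c ∈ R.O ↔ c ∈ A := fun c =>
    algebraMap_mem_gO_iff (gaussNorm π hπ (card_Q_pos M) hu₀) c
  have hTA : ∀ c : Kb, c ∈ A → algebraMap Kb (FN (M * q)) c ∈ (twoRed hqM π hπ).O := by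
    intro c hc
    refine (twoRed hqM π hπ).algebraMap_mem_O ?_
    rw [twoRed_A]
    exact hc
  have hRc : ∀ (c : Kb) (h₀ : algebraMap Kb (FN M) c ∈ R.O),
      R.red ⟨_, h₀⟩ = algebraMap k (Fb k M) (π ⟨c, (hA c).1 h₀⟩) := by
    intro c h₀
    exact Subtype.ext (gRed_algebraMap (gaussNorm π hπ (card_Q_pos M) hu₀) (⟨c, (hA c).1 h₀⟩ : A))
  refine NP.exists_pow_of_norm R A hA (twoRed hqM π hπ).O
    ((RingHom.fst _ _).comp (twoRed hqM π hπ).red)
    ((frobHom (M := M) (q := q) (k := k)).comp ((RingHom.snd _ _).comp (twoRed hqM π hπ).red))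
    hq.out (fun c h => hTA c ((hA c).1 h)) ?_ ?_ ?_ (f := f) (h₀ := h₀) hf u δ e z hδ he hthr heq
  · intro c h₀
    rw [hRc c h₀]
    exact congrArg Prod.fst (red_const hqM π hπ ⟨c, (hA c).1 h₀⟩ (hTA c ((hA c).1 h₀)))
  · intro c h₀
    rw [hRc c h₀, ← map_pow]
    have h1 := congrArg Prod.snd (red_const hqM π hπ ⟨c, (hA c).1 h₀⟩ (hTA c ((hA c).1 h₀)))
    show FrobK.frobAut k q M • ((twoRed hqM π hπ).red ⟨algebraMap Kb (FN (M * q)) c, _⟩).2 = _
    rw [h1]
    exact SemilinearAut.smul_algebraMap _ _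
  · intro u
    obtain ⟨⟨v, hv, hN, hred⟩, -⟩ := twoRed_norm_red hqM π hπ (f := (u : FN (M * q)))
      (f₁ := (u : FN (M * q))) (f₂ := (u : FN (M * q))) (c₁ := 1) (c₂ := 1) one_ne_zero one_ne_zero
      (by rw [map_one, one_mul]) (by rw [map_one, one_mul]) u.2.1 u.2.2
    rw [one_pow, one_mul, map_one, one_mul] at hN
    have hN' : Algebra.norm (FN M) (u : FN (M * q)) = v := hN
    rw [hN']
    exact ⟨hv, Subtype.ext hred⟩

theorem nl_beta {f : FN (M * q)} {h₀ : FN M}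
    (hf : TorsES.normAlong (heckeBetaBar Kb M q) f = h₀ ^ q)
    (u : FN (M * q)) (δ e : Kb) (z : (twoRed hqM π hπ).O)
    (hδ : A.valuation δ = 1) (he : A.valuation e < 1)
    (hthr : A.valuation (q : Kb) ^ q < A.valuation e ^ (q - 1))
    (heq : f * u ^ q = algebraMap Kb _ δ + algebraMap Kb _ e * (z : FN (M * q))) :
    ∃ v : Fb k M, ((twoRed hqM π hπ).red z).2 = v ^ q := by
  obtain ⟨u₀, hu₀⟩ := exists_isCoreExt M q hqM
  set R := gaussRedData π hπ (card_Q_pos M) hu₀ with hR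
  letI := algebraAlong (heckeBetaBar Kb M q)
  haveI := isScalarTower_along (heckeBetaBar Kb M q)
  haveI : Module.Finite (FN M) (FN (M * q)) := Fermat.Agent.GAL.HeckeInputs.finiteAlong_beta M q
  have hA : ∀ c : Kb, algebraMap Kb (FN M) c ∈ R.O ↔ c ∈ A := fun c =>
    algebraMap_mem_gO_iff (gaussNorm π hπ (card_Q_pos M) hu₀) c
  have hTA : ∀ c : Kb, c ∈ A → algebraMap Kb (FN (M * q)) c ∈ (twoRed hqM π hπ).O := by
    intro c hc
    refine (twoRed hqM π hπ).algebraMap_mem_O ?_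
    rw [twoRed_A]
    exact hc
  have hRc : ∀ (c : Kb) (h₀ : algebraMap Kb (FN M) c ∈ R.O),
      R.red ⟨_, h₀⟩ = algebraMap k (Fb k M) (π ⟨c, (hA c).1 h₀⟩) := by
    intro c h₀
    exact Subtype.ext (gRed_algebraMap (gaussNorm π hπ (card_Q_pos M) hu₀) (⟨c, (hA c).1 h₀⟩ : A))
  refine NP.exists_pow_of_norm R A hA (twoRed hqM π hπ).O
    ((RingHom.snd _ _).comp (twoRed hqM π hπ).red)
    ((frobHom (M := M) (q := q) (k := k)).comp ((RingHom.fst _ _).comp (twoRed hqM π hπ).red))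
    hq.out (fun c h => hTA c ((hA c).1 h)) ?_ ?_ ?_ (f := f) (h₀ := h₀) hf u δ e z hδ he hthr heq
  · intro c h₀
    rw [hRc c h₀]
    exact congrArg Prod.snd (red_const hqM π hπ ⟨c, (hA c).1 h₀⟩ (hTA c ((hA c).1 h₀)))
  · intro c h₀
    rw [hRc c h₀, ← map_pow]
    have h1 := congrArg Prod.fst (red_const hqM π hπ ⟨c, (hA c).1 h₀⟩ (hTA c ((hA c).1 h₀)))
    show FrobK.frobAut k q M • ((twoRed hqM π hπ).red ⟨algebraMap Kb (FN (M * q)) c, _⟩).1 = _
    rw [h1]
    exact SemilinearAut.smul_algebraMap _ _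
  · intro u
    obtain ⟨-, ⟨v, hv, hN, hred⟩⟩ := twoRed_norm_red hqM π hπ (f := (u : FN (M * q)))
      (f₁ := (u : FN (M * q))) (f₂ := (u : FN (M * q))) (c₁ := 1) (c₂ := 1) one_ne_zero one_ne_zero
      (by rw [map_one, one_mul]) (by rw [map_one, one_mul]) u.2.1 u.2.2
    rw [one_pow, one_mul, map_one, one_mul] at hN
    have hN' : Algebra.norm (FN M) (u : FN (M * q)) = v := hN
    rw [hN']
    exact ⟨hv, Subtype.ext hred⟩

end

theorem nlConc (M p : ℕ) [NeZero M] [hp : Fact p.Prime] (hpM : ¬ p ∣ M) : NLConc M p hpM := by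
  intro A hA _ _ D f h1 hyA hyB u δ e z hu hδ he hthr heq
  rw [twoRed_A] at hδ he hthr
  have hdiv : TorsES.IsDiv (p : ℤ) (D : Divisor Kb (FN (M * p))) (f : FN (M * p)) := by
    refine ⟨?_, h1.ord⟩
    intro h0
    have h2 : f = 0 := Subtype.ext h0
    have h3 := h1.red
    rw [h2, map_zero] at h3
    exact zero_ne_one h3
  obtain ⟨a, -, ha⟩ := exists_normAlong_eq_of_pushPic0_eq_zero (heckeAlphaBar Kb M p)
    (heckeAlphaBarIntegral M p) (finiteAlong_alpha M p) (normFormulaAlong_alpha M p)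
    (RB.isSepParam_jF M) hp.out.ne_zero hdiv hyA
  obtain ⟨b, -, hb⟩ := exists_normAlong_eq_of_pushPic0_eq_zero (heckeBetaBar Kb M p)
    (heckeBetaBarIntegral M p) (finiteAlong_beta M p) (normFormulaAlong_beta M p)
    (RB.isSepParam_jF M) hp.out.ne_zero hdiv hyB
  exact ⟨nl_alpha hpM (residue A) residue_surjective ha u δ e z hδ he hthr heq,
    nl_beta hpM (residue A) residue_surjective hb u δ e z hδ he hthr heq⟩

end Fermat.Agent.S33
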