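import Fermat.Agent.S33.NT
import Fermat.Agent.S32.SubQ

/-!
# S33 : the annihilator criterion for `Ord`

If every element of `ℤ[G]` which kills `X` kills `Z`, then `Z` is an equivariant quotient of an
equivariant subgroup of a finite power of `X` (construction of `S32/SubQ.lean`), so
`Ord I X → Ord I Z`.
-/

set_option autoImplicit false

namespace Fermat.Agent.S33

open Fermat.Agent.S32 Fermat.Agent.S32.SubQAux

variable {G : Type*} [Group G] {I : Subgroup G}
  {X Z : Type*} [AddCommGroup X] [Finite X] [DistribMulAction G X]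
  [AddCommGroup Z] [Finite Z] [DistribMulAction G Z]

theorem Ord.of_annihilator (hX : Ord I X)
    (h : ∀ x : G →₀ ℤ, (∀ y : X, (x.sum fun σ a => a • σ • y) = 0) →
      ∀ z : Z, (x.sum fun σ a => a • σ • z) = 0) : Ord I Z := by
  classical
  have : Fintype Z := Fintype.ofFinite Z
  have hW : Ord I ((Z × X) → X) := Ord.pi hX
  -- the parametrisation
  let Φ : (Z → (G →₀ ℤ)) →+ ((Z × X) → X) × Z :=
    AddMonoidHom.mk' (fun x => (fun i => actHom i.2 (x i.1), ∑ z, actHom z (x z))) (by
      intro x x'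
      refine Prod.ext ?_ ?_
      · funext i; simp
      · simp [Finset.sum_add_distrib])
  have hΦ : ∀ x, Φ x = (fun i => actHom i.2 (x i.1), ∑ z, actHom z (x z)) := fun _ => rfl
  let Γ : AddSubgroup (((Z × X) → X) × Z) := Φ.range
  have hstab : ∀ (σ : G), ∀ w ∈ Γ, σ • w ∈ Γ := by
    rintro σ _ ⟨x, rfl⟩
    refine ⟨fun z => Finsupp.mapDomain (σ * ·) (x z), ?_⟩
    rw [hΦ, hΦ]
    refine Prod.ext ?_ ?_
    · funext i
      exact (smul_actHom σ i.2 (x i.1)).symm
    · show ∑ z, actHom z (Finsupp.mapDomain (σ * ·) (x z)) = σ • ∑ z, actHom z (x z)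
      rw [Finset.smul_sum]
      exact Finset.sum_congr rfl fun z _ => (smul_actHom σ z (x z)).symm
  let _ : DistribMulAction G Γ := stableAction Γ hstab
  let pr₁ : Γ →+ ((Z × X) → X) := (AddMonoidHom.fst _ _).comp Γ.subtype
  let pr₂ : Γ →+ Z := (AddMonoidHom.snd _ _).comp Γ.subtype
  have hinj : Function.Injective pr₁ := by
    rw [injective_iff_map_eq_zero]
    rintro ⟨_, x, rfl⟩ hx
    have hx' : (fun i : Z × X => actHom i.2 (x i.1)) = 0 := hx
    have h1 : ∀ z z' : Z, actHom z' (x z) = 0 := by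
      intro z z'
      rw [actHom_apply]
      refine h (x z) (fun y => ?_) z'
      rw [← actHom_apply]
      exact congrFun hx' (z, y)
    refine Subtype.ext ?_
    show Φ x = 0
    rw [hΦ, hx']
    refine Prod.ext rfl ?_
    exact Finset.sum_eq_zero fun z _ => h1 z z
  have hsurj : Function.Surjective pr₂ := by
    intro z₀
    refine ⟨⟨Φ (Pi.single z₀ (Finsupp.single 1 1)), ⟨_, rfl⟩⟩, ?_⟩
    show ∑ z, actHom z ((Pi.single z₀ (Finsupp.single 1 1) : Z → (G →₀ ℤ)) z) = z₀
    rw [Finset.sum_eq_single z₀]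
    · rw [Pi.single_eq_same, actHom_single, one_smul, one_smul]
    · intro z _ hz
      rw [Pi.single_eq_of_ne hz, map_zero]
    · intro hz; exact absurd (Finset.mem_univ _) hz
  have hΓ : Ord I Γ := Ord.of_injective hW pr₁ hinj (fun _ _ _ => rfl)
  exact Ord.of_surjective hΓ pr₂ hsurj (fun _ _ _ => rfl)

end Fermat.Agent.S33
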