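import Fermat.Agent.S33.Geo.Defs
import Fermat.Agent.SS.H1C.Nodal
import Fermat.Agent.NP.Main
import Fermat.Agent.MAZ.Abs.Line

/-!
# S33 : (NEW-p) from the concrete norm lemma

`NewP M p` from `NP.smul_eq_nsmul_of_new` (abstract (NEW-p)), `SS.exists_nodalData_fixed` (nodal datum with
inertia-fixed charts) and the concrete norm lemma `NLConc M p`.
-/

set_option autoImplicit false
set_option linter.style.haveILetI false
set_option linter.unusedSectionVars false

noncomputable section

open AlgebraicCurve ModularCurve IsLocalRing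

namespace Fermat.Agent.S33

open Fermat.Agent.SS
open Fermat.Agent.RED hiding Kb
open Fermat.Agent.S24
open Fermat.Agent.RED.Cusp (Fb jb)

/-- the concrete norm lemma: `NP.NLHyp` for the Kummer generators of the `p`-new classes. -/
def NLConc (M p : ℕ) [NeZero M] [Fact p.Prime] (hpM : ¬ p ∣ M) : Prop :=
  ∀ (A : ValuationSubring Kb), A.LiesOverPrime p →
    ∀ [CharP (ResidueField A) p] [IsAlgClosed (ResidueField A)],
      ∀ (D : Divisor.degZero (K := Kb) (F := FN (M * p)))
        (f : (twoRed hpM (residue A) residue_surjective).O),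
        IsOne (twoRed hpM (residue A) residue_surjective) p (D : Divisor Kb (FN (M * p))) f →
        pushA M p (Pic0.mk D) = 0 → pushB M p (Pic0.mk D) = 0 →
        NP.NLHyp (twoRed hpM (residue A) residue_surjective) p (f : FN (M * p))

theorem newP_of_nlConc {M p : ℕ} [NeZero M] [hp : Fact p.Prime] (hpM : ¬ p ∣ M)
    (h49 : 4 ∣ M ∨ 9 ∣ M) (hNL : NLConc M p hpM) : NewP M p hpM := by
  intro A hA _ _ τ hτ a ha y _ htor hyA hyB
  obtain ⟨c, 𝒩, -, -, -, -, -, -, -, -, hI, hP'⟩ := exists_nodalData_fixed hpM A h49 hA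
  obtain ⟨D, f, rfl, h1⟩ := htor.exists_isOne (RB.isSepParam_jF (M * p))
  obtain ⟨ζ, hζ⟩ := MAZ.exists_primitiveRoot_Qb hp.out.ne_zero
  exact NP.smul_eq_nsmul_of_new 𝒩 (RB.isSepParam_jF (M * p))
    (Cusp.isSepParam_jb M (ResidueField A) p hpM) hp.out (hI τ hτ) (hP' τ hτ) hζ.pow_eq_one
    (hζ.ne_one hp.out.one_lt) (ha ζ hζ.pow_eq_one) h1 (hNL A hA D f h1 hyA hyB)

end Fermat.Agent.S33
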